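import Fermat.Agent.BR.F.Defs
import Fermat.Agent.ES.RepGalois
import Fermat.Agent.ORD.TR.Interface

/-!
# ORD / Geo : the three valuation-theoretic inputs `D0`, `D1`, `D2` of ORD in MID language
(owner of the shapes: helper11)

`p` odd prime, `A` a valuation subring of `ℚ̄` over `p`, `I = A.inertiaSubgroupIn ℚ`.
A *class group* at level `N` is a set `XX ⊆ F_N` of functions with divisor divisible by `p`, closed
under multiplication and containing the `p`-th powers; all statements are about classes modulo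
`p`-th powers.

* `Stmt_D2` (level `N`, `p ∥ N`)   : `XX ⊆ W_∞(p)`, `w_p`-stable, `N_p` surjective on classes
                                      ⟹ `I` acts on the classes of `XX` through `ω`.
* `Stmt_D1` (level `M`, `p ∤ M`)   : `YY ⊆ W_∞(p)`, `T_p` surjective on classes ⟹ the same.
* `Stmt_D0` (level `M`, `p ∤ M`)   : a class in `W_∞(p)` killed by `T_p` on which `I` acts through
                                      `ω` is trivial.
`Stmt_ESOrd_of` : what [FIN] + [NM] have to prove.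
-/

set_option autoImplicit false

namespace Fermat.Agent.ORD.Geo

open Fermat.Agent.S24 (Qbar FF)
open Fermat.Agent.ES.Mid
open Fermat.Agent.ES.RepGalois (IsCyc)
open Fermat.Agent.BR.F (IsAL ClassCong formalU)

/-- a group of functions with divisor divisible by `p`, containing the `p`-th powers. -/
structure IsClassGroup (N p : ℕ) (XX : Set (FF N)) : Prop where
  isDiv : ∀ u ∈ XX, IsDiv N p u
  mul : ∀ u ∈ XX, ∀ v ∈ XX, u * v ∈ XX
  inv : ∀ u ∈ XX, u⁻¹ ∈ XX
  pow : ∀ f : FF N, f ≠ 0 → f ^ p ∈ XX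

/-- inertia acts on the class of `u` through the cyclotomic character mod `p`. -/
def ActsByOmega (N p : ℕ) (A : ValuationSubring Qbar) (u : FF N) : Prop :=
  ∀ s ∈ A.inertiaSubgroupIn ℚ, ∀ a : ℕ, IsCyc p s a → ∃ f : FF N, gal N s u = u ^ a * f ^ p

/-- **(D'')** -/
def Stmt_D2 : Prop :=
  ∀ (N : ℕ) [NeZero N] (p : ℕ) [NeZero p], p.Prime → p ≠ 2 → p ∣ N → ¬ p ^ 2 ∣ N →
    ∀ (A : ValuationSubring Qbar), A.LiesOverPrime p →
    ∀ (w : FF N ≃ₐ[Qbar] FF N), IsAL N p w → ∀ ζ : Qbarˣ, IsPrimitiveRoot ζ p →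
    ∀ XX : Set (FF N), IsClassGroup N p XX → (∀ u ∈ XX, ClassCong N p A u) →
      (∀ u ∈ XX, w u ∈ XX) →
      (∀ u ∈ XX, ∃ u' ∈ XX, ∃ v f : FF N, f ≠ 0 ∧
        (v : LaurentSeries Qbar) = formalU p ζ (u' : LaurentSeries Qbar) ∧ u = v * f ^ p) →
      ∀ u ∈ XX, ActsByOmega N p A u

/-- **(D')** -/
def Stmt_D1 : Prop :=
  ∀ (M : ℕ) [NeZero M] (p : ℕ) [NeZero p], p.Prime → p ≠ 2 → ¬ p ∣ M →
    ∀ (A : ValuationSubring Qbar), A.LiesOverPrime p → ∀ ζ : Qbarˣ, IsPrimitiveRoot ζ p →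
    ∀ YY : Set (FF M), IsClassGroup M p YY → (∀ u ∈ YY, ClassCong M p A u) →
      (∀ u ∈ YY, ∃ u' ∈ YY, ∃ v f : FF M, f ≠ 0 ∧
        (v : LaurentSeries Qbar) = formalN p ζ (u' : LaurentSeries Qbar) ∧ u = v * f ^ p) →
      ∀ u ∈ YY, ActsByOmega M p A u

/-- **(D)** -/
def Stmt_D0 : Prop :=
  ∀ (M : ℕ) [NeZero M] (p : ℕ) [NeZero p], p.Prime → p ≠ 2 → ¬ p ∣ M →
    ∀ (A : ValuationSubring Qbar), A.LiesOverPrime p → ∀ ζ : Qbarˣ, IsPrimitiveRoot ζ p →
    ∀ u : FF M, IsDiv M p u → ClassCong M p A u →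
      (∃ f : FF M, ((f ^ p : FF M) : LaurentSeries Qbar)
        = formalN p ζ (u : LaurentSeries Qbar)) →
      ActsByOmega M p A u → ∃ f : FF M, u = f ^ p

/-- What [FIN] + [NM] have to prove. -/
def Stmt_ESOrd_of : Prop := Stmt_D0 → Stmt_D1 → Stmt_D2 → TR.Stmt_ESOrd

end Fermat.Agent.ORD.Geo
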